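import Fermat.Statements.S03
import Fermat.Agent.Top.Instances

set_option autoImplicit false
open FreyPackage

namespace Fermat.Agent.S03

theorem result (P : FreyPackage) : False := by
  exact Top.false_of_freyPackage Top.lowerOdd_holds Top.lowerAtP_holds Top.irreducible_holds Top.switch_holds Top.family_holds Top.twoAdic_holds Top.lifting_holds P

end Fermat.Agent.S03
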