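import Fermat.Statements.S05
import Fermat.Agent.Results.S05
import Fermat.Agent.Top.Instances

set_option autoImplicit false
open WeierstrassCurve WeierstrassCurve.Affine WeierstrassCurve.Affine.Point
open CuspForm ModularFormClass UpperHalfPlane
open FreyPackage

namespace Fermat.Agent.S05

theorem result (P : FreyPackage) {q : ℕ} (hq : q.Prime) (hq2 : q ≠ 2) (hqp : q ≠ P.p) : P.GaloisRepUnramifiedAt q := by
  exact Fermat.Agent.Results.S05.result P hq hq2 hqp

end Fermat.Agent.S05
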