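import Fermat.Statements.S21
import Fermat.Agent.HeckeDuality.Shimura
import Fermat.Agent.Top.Instances
-- import your own Fermat.Agent.* helpers here

set_option autoImplicit false
open ModularCurve

namespace Fermat.Agent.S21

theorem result (N : ℕ) [NeZero N] :
    Function.Injective (ModularCurve.periodHomPair N)
      ∧ LinearMap.range (ModularCurve.periodHomPair N)
          = ModularCurve.Period.parabolicHoms ℂ (CongruenceSubgroup.Gamma0 N) ℂ := by
  exact ⟨Fermat.Agent.Periods.periodHomPair_injective N,
    Fermat.Agent.HeckeDuality.range_periodHomPair N⟩

end Fermat.Agent.S21
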