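import Fermat.Statements.S25
import Fermat.Agent.Jac.Geometry.Model
import Fermat.Agent.Jac.Geometry.GeomIntegral
import Fermat.Agent.Jac.Rep.DegModel
import Fermat.Agent.Jac.Rep.Transfer
import Fermat.Agent.Jac.Rep.Representable
import Fermat.Agent.Jac.Rep.Separated
import Fermat.Agent.Jac.Rep.Abel
import Fermat.Agent.Jac.Rep.Smooth
import Fermat.Agent.Jac.Rep.Proper
import Fermat.Agent.Jac.Rep.AlgEquiv
import Fermat.Agent.Top.Instances

set_option autoImplicit false
universe u
open CategoryTheory CategoryTheory.Limits AlgebraicGeometry AlgebraicGeometry.RelPicard NeronModelInfra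
  GoodReductionJacobian
open AlgebraicGeometry AlgebraicGeometry.RelPicard

namespace Fermat.Agent.S25

open Fermat.Agent.Jac in
theorem result
    (k : Type u) [Field k] [IsAlgClosed k] {C : Scheme.{u}} (c : C ⟶ Spec (CommRingCat.of k))
    [IsProper c] [SmoothOfRelativeDimension 1 c] [IsIntegral C]
    (ε : SchemeHomOver (𝟙 (Spec (CommRingCat.of k))) c) :
    ∃ D : RelativePic0Designation k c,
      Nonempty (RepresentsRelSubPic c ε (algEquivZeroCut c ε) D) ∧
        Smooth D.toBase ∧ IsProper D.toBase ∧ GeometricallyConnected D.toBase := by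
  obtain ⟨m⟩ := exists_curveModel c ε
  obtain ⟨F⟩ := nonempty_degZero_chartFamily m.D
  obtain ⟨J, ⟨h⟩, hft⟩ := m.exists_representation m.D.h0Const F
  have := m.isSeparated h
  have := geometricallyIntegral c ε
  obtain ⟨σ, hσ⟩ := m.exists_sub h
  obtain ⟨u, hu⟩ := m.exists_abel h
  have hS := m.exists_surjection h hσ hu
  exact ⟨J, ⟨representsOfIff h fun t M =>
      ⟨m.fibrewiseAlgEquivZero_of_cut h hS M, m.cut_degZero_of_fibrewiseAlgEquivZero M⟩⟩,
    m.smooth h, m.isProper_toBase h hσ hu, m.geometricallyConnected_toBase h hσ hu⟩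

end Fermat.Agent.S25
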