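import Fermat.Statements.S42
import Fermat.Agent.GaloisReps.Models
import Fermat.Agent.Top.Instances

set_option autoImplicit false
open FreyPackage

namespace Fermat.Agent.S42

theorem result (P : FreyPackage) :
    ∀ M : ℕ, 0 < M → P.EigenformResidualAttachmentAt M := by
  exact fun M hM => Fermat.Agent.GaloisReps.eigenformResidualAttachment
    Fermat.Agent.GaloisReps.nonempty_heckeGaloisModel P M hM

end Fermat.Agent.S42
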