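import Fermat.Statements.S49
import Fermat.Agent.HeckeDuality.DeligneSerre
import Fermat.Agent.Top.Instances

set_option autoImplicit false
open CuspForm EisensteinWeightOne CongruenceSubgroup ModularFormClass
open FLT FLT.AbstractIntegralStructure

namespace Fermat.Agent.S49

theorem result
    {N : ℕ} [NeZero N] (h : CuspForm.HasIntegralBasis N) {a : ℕ → ℤ}
    (heig : FormalHecke.IsEigensystem
      (fun ℓ => if ℓ ∣ N then 0 else ((chiNegThree ℓ : ℤ) : ℤ)) a)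
    (hreal : CuspForm.IsLatticeRealized N a) :
    ∃ (f : CuspForm (Gamma0 N) 2) (_ : f.IsNormalizedEigenform)
      (𝔪' : Ideal (integralClosure ℤ ℂ)), 𝔪'.IsMaximal ∧
      ((3 : ℕ) : integralClosure ℤ ℂ) ∈ 𝔪' ∧
      ∀ (ℓ : ℕ) (_ : ℓ.Prime) (_ : ¬ ℓ ∣ N),
        ∃ c : integralClosure ℤ ℂ, (c : ℂ) = ModularFormClass.qCoeff f ℓ ∧
          c - (a ℓ : integralClosure ℤ ℂ) ∈ 𝔪' := by
  haveI : Fact (Nat.Prime 3) := ⟨Nat.prime_three⟩
  obtain ⟨χ, hχ⟩ := Fermat.Agent.HeckeDuality.exists_modThree_character heig hreal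
  obtain ⟨f, hf, 𝔪', hmax, h3, hcong⟩ :=
    Fermat.Agent.HeckeDuality.exists_eigenform_lifting (p := 3)
      (Fermat.Agent.HeckeDuality.hasIntegralStructure_of_hasIntegralBasis h) χ
  exact ⟨f, hf, 𝔪', hmax, h3, fun ℓ hℓ _ => hcong ℓ hℓ (a ℓ) (hχ ℓ hℓ)⟩

end Fermat.Agent.S49
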