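import Fermat.Statements.S55
import Fermat.Agent.CFT.PT.ShaTwo
import Fermat.Agent.CFT.PT.ShaOne
import Fermat.Agent.CFT.PT.ShaDual
import Fermat.Agent.CFT.PT.MaxLevel
import Fermat.Agent.CFT.PT.Arith.Level
import Fermat.Agent.CFT.GW.GlobalClass
import Fermat.Agent.Top.Instances

set_option autoImplicit false
set_option synthInstance.maxHeartbeats 200000
set_option maxHeartbeats 1000000
set_option linter.style.haveILetI false
open CategoryTheory Module groupCohomology ExtCitation
open groupCohomology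

noncomputable section

namespace Fermat.Agent.S55

open Fermat.Agent.Arith Fermat.Agent.CFT Fermat.Agent.CFT.Idele Fermat.Agent.CFT.PT

variable {p : ℕ} [hp : Fact p.Prime]

theorem apply_root (g : GQ) {z : QBar} (hz : IsPrimitiveRoot z p) :
    g z = z ^ (cycloChar p g : ZMod p).val := by
  haveI : NeZero p := ⟨hp.out.ne_zero⟩
  have ht := (mem_rootsOfUnity p (hz.isUnit hp.out.ne_zero).unit).mpr
    (Units.ext (by rw [Units.val_pow_eq_pow_val, IsUnit.unit_spec, hz.pow_eq_one]; rfl))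
  have h := modularCyclotomicCharacter.spec QBar (card_rootsOfUnity_eq_self p)
    (g : QBar ≃+* QBar) ht
  rwa [IsUnit.unit_spec] at h

theorem cycloChar_eq_one {g : GQ} {z : QBar} (hz : IsPrimitiveRoot z p) (h : g z = z) :
    cycloChar p g = 1 := Units.ext (by
  haveI : Fact (1 < p) := ⟨hp.out.one_lt⟩
  refine ZMod.val_injective p ?_
  rw [Units.val_one, ZMod.val_one]
  exact hz.pow_inj (ZMod.val_lt _) hp.out.one_lt (by rw [← apply_root g hz, h, pow_one]))

/-- The Cartier dual of the twisted dual. -/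
theorem exists_dualMod_equiv (M : Rep (ZMod p) GQ) [FiniteDimensional (ZMod p) M]
    (K : IntermediateField ℚ QBar) [FiniteDimensional ℚ K] [Normal ℚ K] (ζ : K)
    (hζ : IsPrimitiveRoot ζ p) [DistribMulAction (K ≃ₐ[ℚ] K) (M.dualTwist (cycloChar p))]
    (hact : ∀ (g : GQ) (a : M.dualTwist (cycloChar p)),
      (M.dualTwist (cycloChar p)).ρ g a = res K g • a) :
    ∃ eM : M ≃+ DualMod K (M.dualTwist (cycloChar p)),
      ∀ (g : GQ) (m : M), eM (M.ρ g m) = g • eM m := by
  classical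
  haveI : NeZero p := ⟨hp.out.ne_zero⟩
  have hz : IsPrimitiveRoot (ζ : QBar) p := hζ.map_of_injective (f := K.val) K.val.injective
  set z : QBarˣ := Units.mk0 (ζ : QBar) (hz.ne_zero hp.out.ne_zero)
  have hzp : z ^ p = 1 := Units.ext (by rw [Units.val_pow_eq_pow_val]; exact hz.pow_eq_one)
  let E : ZMod p →+ Additive QBarˣ := AddMonoidHom.mk' (fun x => Additive.ofMul (z ^ x.val))
    fun x y => congrArg Additive.ofMul (by
      show z ^ (x + y).val = z ^ x.val * z ^ y.val
      rw [← pow_add, ZMod.val_add]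
      exact (pow_eq_pow_mod _ hzp).symm)
  have hEinj : Function.Injective E := fun x y e => by
    refine ZMod.val_injective p (hz.pow_inj (ZMod.val_lt _) (ZMod.val_lt _) ?_)
    exact congrArg Units.val (congrArg Additive.toMul e)
  have hEsurj : ∀ v : Additive QBarˣ, p • v = 0 → ∃ x, E x = v := fun v hv => by
    obtain ⟨i, hi, e⟩ := hz.eq_pow_of_pow_eq_one (ξ := ((v.toMul : QBarˣ) : QBar))
      (by rw [← Units.val_pow_eq_pow_val, ← toMul_nsmul, hv]; rfl)
    exact ⟨(i : ZMod p), congrArg Additive.ofMul (Units.ext (by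
      rw [ZMod.val_natCast_of_lt hi, Units.val_pow_eq_pow_val]; exact e))⟩
  have hEg : ∀ (g : GQ) (x : ZMod p), g • E x = E ((cycloChar p g : ZMod p) * x) := fun g x => by
    refine congrArg Additive.ofMul (Units.ext ?_)
    show g ((z ^ x.val : QBarˣ) : QBar) = ((z ^ _ : QBarˣ) : QBar)
    rw [Units.val_pow_eq_pow_val, Units.val_pow_eq_pow_val, map_pow,
      show ((z : QBarˣ) : QBar) = (ζ : QBar) from rfl, apply_root g hz, ← pow_mul, ZMod.val_mul]
    exact pow_eq_pow_mod _ hz.pow_eq_one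
  let e₀ : M →+ DualMod K (M.dualTwist (cycloChar p)) := AddMonoidHom.mk'
    (fun m => TwHom.of (E.comp (Module.Dual.eval (ZMod p) M m).toAddMonoidHom))
    fun m m' => TwHom.ext fun a => by
      show E (a (m + m')) = E (a m) + E (a m')
      rw [map_add, map_add]
  have he₀ : ∀ m (a : Module.Dual (ZMod p) M), e₀ m a = E (a m) := fun _ _ => rfl
  have hbij : Function.Bijective e₀ := by
    refine ⟨(injective_iff_map_eq_zero _).2 fun m hm => ?_, fun φ => ?_⟩
    · refine (Module.forall_dual_apply_eq_zero_iff (ZMod p) m).1 fun a => hEinj ?_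
      rw [map_zero, ← he₀ m a, hm]
      rfl
    · choose x hx using fun a : Module.Dual (ZMod p) M => hEsurj (φ a) (by
        rw [← map_nsmul, show p • a = 0 from by
          rw [← Nat.cast_smul_eq_nsmul (ZMod p), CharP.cast_eq_zero, zero_smul]]
        exact map_zero φ.toHom)
      let ξ : Module.Dual (ZMod p) M →+ ZMod p := AddMonoidHom.mk' x fun a b => hEinj (by
        rw [map_add, hx, hx, hx]
        exact map_add φ.toHom a b)
      obtain ⟨m, hm⟩ := (Module.evalEquiv (ZMod p) M).surjective (ξ.toZModLinearMap p)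
      refine ⟨m, TwHom.ext fun a => (he₀ m a).trans ?_⟩
      rw [show a m = x a from LinearMap.congr_fun hm a, hx]
  refine ⟨AddEquiv.ofBijective e₀ hbij, fun g m => TwHom.ext fun a => ?_⟩
  show E ((show Module.Dual (ZMod p) M from a) (M.ρ g m)) = g • e₀ m ((res K g⁻¹) • a)
  rw [← hact, he₀, hEg, Rep.dualTwist_ρ_apply, inv_inv]
  show E _ = E ((cycloChar p g : ZMod p) * ((cycloChar p g⁻¹ : ZMod p) * _))
  rw [← mul_assoc, ← Units.val_mul, ← map_mul, mul_inv_cancel, map_one, Units.val_one, one_mul]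
  rfl

theorem result
    {p : ℕ} [Fact p.Prime] (hp2 : p ≠ 2) (S : Finset Nat.Primes) (hpS : pPrime p ∈ S)
    (M : Rep (ZMod p) (AlgebraicClosure ℚ ≃ₐ[ℚ] AlgebraicClosure ℚ))
    [FiniteDimensional (ZMod p) M]
    (hsm : ∀ m : M, ∃ F : IntermediateField ℚ (AlgebraicClosure ℚ), FiniteDimensional ℚ F ∧
      ∀ s ∈ F.fixingSubgroup, M.ρ s m = m)
    (hMur : ∀ q : Nat.Primes, q ∉ S → ∀ A : ValuationSubring (AlgebraicClosure ℚ),
      A.LiesOverPrime (q : ℕ) → ∀ g ∈ A.inertiaSubgroupIn ℚ, M.ρ g = 1) :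
    ∃ B : sha₁ S (M.dualTwist (cycloChar p)) →ₗ[ZMod p] sha₂ S M →ₗ[ZMod p] ZMod p,
      (∀ y, (∀ x, B y x = 0) → y = 0) ∧ (∀ x, (∀ y, B y x = 0) → x = 0) := by
  classical
  obtain ⟨K, hKf, hKn, hK, ⟨z, hzK, hz⟩, htriv⟩ := PT.exists_level S hpS M hsm hMur
  letI := hKf; letI := hKn
  let V := M.dualTwist (cycloChar p)
  let ζ : K := ⟨z, hzK⟩
  have hζ : IsPrimitiveRoot ζ p :=
    IsPrimitiveRoot.of_map_of_injective (f := K.val) hz K.val.injective
  have hV : ∀ s ∈ K.fixingSubgroup, V.ρ s = 1 := fun s hs => by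
    refine LinearMap.ext fun a => ?_
    rw [Rep.dualTwist_ρ_apply, cycloChar_eq_one hz
      ((IntermediateField.mem_fixingSubgroup_iff _ _).1 hs z hzK), htriv _ (inv_mem hs)]
    exact (one_smul _ _).trans rfl
  have hcongr : ∀ g g', res K g = res K g' → V.ρ g = V.ρ g' := fun g g' e => by
    rw [show g' = g * (g⁻¹ * g') from (mul_inv_cancel_left g g').symm, map_mul V.ρ g,
      hV _ ((res_eq_iff K).1 e), mul_one]
  letI act : DistribMulAction (K ≃ₐ[ℚ] K) V :=
    { smul := fun σ a => V.ρ (lift K σ) a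
      one_smul := fun a => by
        show V.ρ (lift K 1) a = a
        rw [hcongr (lift K 1) 1 (by rw [res_lift, map_one]), map_one]
        rfl
      mul_smul := fun σ τ a => by
        show V.ρ (lift K (σ * τ)) a = V.ρ (lift K σ) (V.ρ (lift K τ) a)
        rw [hcongr (lift K (σ * τ)) (lift K σ * lift K τ) (by simp [res_lift]), map_mul]
        rfl
      smul_zero := fun σ => map_zero _
      smul_add := fun σ a b => map_add _ a b }
  have hact : ∀ (g : GQ) (a : V), V.ρ g a = res K g • a := fun g a => by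
    show V.ρ g a = V.ρ (lift K (res K g)) a
    rw [hcongr g (lift K (res K g)) (res_lift K _).symm]
  haveI : Finite V := Module.finite_of_finite (ZMod p)
  letI : Fintype V := Fintype.ofFinite _
  let ε : Lat (K ≃ₐ[ℚ] K) V →+ V := Lat.ofBasis fun a σ => σ • a
  have hε : Presentation p ε := ⟨fun a => ⟨Lat.e a 1, by rw [Lat.ofBasis_e, one_smul]⟩,
    fun g x => Lat.map_smul_of_basis ε g (fun i x => by simp [ε, mul_smul]) x,
    fun a => by rw [← Nat.cast_smul_eq_nsmul (ZMod p), CharP.cast_eq_zero, zero_smul]⟩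
  obtain ⟨L, hLf, hLn, h, hfin, hL, hk, hfac, hN⟩ := exists_maxLevel hp2 hpS hK ζ hζ
  letI := hLf; letI := hLn; letI := hfin
  have hζL : IsPrimitiveRoot (⟨z, h hzK⟩ : L) p :=
    IsPrimitiveRoot.of_map_of_injective (f := L.val) hz L.val.injective
  have hG : GlobalClasses p := fun F _ _ η hη => GW.exists_fundClass F hp2 hη
  obtain ⟨u, hu⟩ := hG L _ hζL
  obtain ⟨Θ, hΘ, hker⟩ := exists_sha₁_hom (S := S) h hp2 hε.killed hL hfac V (AddEquiv.refl V)
    hact
  obtain ⟨eM, heM⟩ := exists_dualMod_equiv M K ζ hζ hact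
  obtain ⟨e₂⟩ := exists_sha₂_addEquiv hε hp2 hpS hK ζ hζ hG M eM heM
  obtain ⟨e₁⟩ := exists_dual_equiv hε h hu hk hp2 hζL hL hN Θ hΘ hker
  let ψ := e₂.trans e₁
  let B₀ : sha₂ S M →ₗ[ZMod p] sha₁ S V →ₗ[ZMod p] ZMod p :=
    AddMonoidHom.toZModLinearMap p (AddMonoidHom.mk' (fun x => (ψ x).toZModLinearMap p)
      fun x x' => LinearMap.ext fun y => by simp)
  refine ⟨B₀.flip, fun y hy => ?_, fun x hx => ?_⟩
  · refine (Module.forall_dual_apply_eq_zero_iff (ZMod p) y).1 fun l => ?_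
    have e : ψ (ψ.symm l.toAddMonoidHom) y = 0 := hy (ψ.symm l.toAddMonoidHom)
    rwa [AddEquiv.apply_symm_apply] at e
  · exact ψ.injective ((AddMonoidHom.ext hx).trans (map_zero ψ).symm)

end Fermat.Agent.S55
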